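import Fermat.Agent.F3.TorsFin.CharFinite
import Fermat.Agent.F3.I2.Descent.Main
import Fermat.Agent.Lib.ConstExt.DescInst
import Fermat.Agent.Lib.RR.OfSep
import Fermat.Agent.S24.GlobalDatum
import Fermat.Agent.F3.DictC.GlobalDatum
import Fermat.Agent.F3.Interfaces

set_option autoImplicit false
set_option linter.style.haveILetI false

/-!
# (K2) `F3.TorsionFinite N`: the `n`-torsion of `J₀(N)(ℚ̄)` is finite

`J₀(N)(ℚ̄) = Pic0 (F_ℚ̄) ↪ Pic0 (FC N)` (base change of the constants along `ℚ̄ → ℂ`, helper82 +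
Lib/ConstExt), and the `n`-torsion of `Pic0 (FC N)` is finite (`finite_torsion_FC`: the character
map `λ` is defined everywhere and injective).
-/

noncomputable section

namespace Fermat.Agent.F3TF

open UpperHalfPlane CongruenceSubgroup ModularCurve AlgebraicCurve
open Fermat.Agent.F3I2

/-- **(K2).** The `n`-torsion of `J₀(N)(ℚ̄)` is finite. -/
theorem torsionFinite (N : ℕ) [NeZero N] : Fermat.Agent.F3.TorsionFinite N := by
  intro n hn
  letI : Algebra (AlgebraicClosure ℚ) ℂ := Fermat.Agent.S24.iota.toAlgebra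
  have hK : Fermat.Agent.RR.IsRRField (AlgebraicClosure ℚ)
      (laurentBaseChange (AlgebraicClosure ℚ) (modularFunctionFieldFull N)) :=
    Fermat.Agent.RR.isRRField_of_charZero (Fermat.Agent.S24.isFunctionFieldOver_jBar N)
  have hK' : Fermat.Agent.RR.IsRRField ℂ (laurentBaseChange ℂ (modularFunctionFieldFull N)) :=
    Fermat.Agent.RR.isRRField_of_charZero (Fermat.Agent.F3Dict.isFunctionFieldOver_jBar N)
  let P := Fermat.Agent.ConstExt.descPlacesOfRR (AlgebraicClosure ℚ) ℂ
    (modularFunctionFieldFull N) hK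
  have hinj : Function.Injective (P.bc hK hK') := P.bc_injective hK hK'
  have hfin : {c : Pic0 ℂ (FC N) | n • c = 0}.Finite := finite_torsion_FC (N := N) hn.ne'
  refine (hfin.preimage hinj.injOn).subset ?_
  intro x hx
  show n • P.bc hK hK' x = 0
  have hx' : n • x = 0 := hx
  rw [← map_nsmul, hx', map_zero]

end Fermat.Agent.F3TF
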