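import Mathlib
import Fermat.Prelude.Def_AlgebraicCurve_DivisorClassGroup

set_option autoImplicit false

/-!
# (K2) TorsionFinite, piece TF-A: an integer valued order function is a multiple of a place

`F / K` fields.  An *order function* is a map `ν : F → ℤ` with `ν (x y) = ν x + ν y`,
`ν (x + y) ≥ min (ν x) (ν y)` (for nonzero arguments) and `ν = 0` on `Kˣ`.
If `ν` is not trivial, then `{ν ≥ 0}` is the valuation ring of a place `v` of `F / K` (in the
sense of the Prelude) and `ν f = v.ord f * ν π` for a uniformizer `π`.  Consequently: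
if `n ∣ v.ord f` for every place `v`, then `n ∣ ν f`.
-/

noncomputable section

namespace Fermat.Agent.F3TF

open AlgebraicCurve

/-- An integer valued order function on `F`, trivial on the constants `K`. -/
structure IsOrdFun (K : Type*) {F : Type*} [Field K] [Field F] [Algebra K F] (ν : F → ℤ) :
    Prop where
  map_mul : ∀ x y : F, x ≠ 0 → y ≠ 0 → ν (x * y) = ν x + ν y
  map_add : ∀ x y : F, x ≠ 0 → y ≠ 0 → x + y ≠ 0 → min (ν x) (ν y) ≤ ν (x + y)
  map_const : ∀ a : K, a ≠ 0 → ν (algebraMap K F a) = 0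

namespace IsOrdFun

variable {K F : Type*} [Field K] [Field F] [Algebra K F] {ν : F → ℤ} (hν : IsOrdFun K ν)
include hν

theorem map_one : ν 1 = 0 := by
  have := hν.map_const 1 one_ne_zero
  rwa [_root_.map_one] at this

theorem map_neg_one : ν (-1) = 0 := by
  have := hν.map_const (-1) (neg_ne_zero.mpr one_ne_zero)
  rwa [_root_.map_neg, _root_.map_one] at this

theorem map_neg (x : F) (hx : x ≠ 0) : ν (-x) = ν x := by
  have := hν.map_mul (-1) x (neg_ne_zero.mpr one_ne_zero) hx
  rw [neg_one_mul, hν.map_neg_one, zero_add] at this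
  exact this

theorem map_inv (x : F) (hx : x ≠ 0) : ν x⁻¹ = -ν x := by
  have := hν.map_mul x x⁻¹ hx (inv_ne_zero hx)
  rw [mul_inv_cancel₀ hx, hν.map_one] at this
  omega

theorem map_div (x y : F) (hx : x ≠ 0) (hy : y ≠ 0) : ν (x / y) = ν x - ν y := by
  rw [div_eq_mul_inv, hν.map_mul x y⁻¹ hx (inv_ne_zero hy), hν.map_inv y hy]
  ring

theorem map_pow (x : F) (hx : x ≠ 0) (k : ℕ) : ν (x ^ k) = k * ν x := by
  induction k with
  | zero => simp [hν.map_one]
  | succ k ih =>
    rw [pow_succ, hν.map_mul _ _ (pow_ne_zero k hx) hx, ih]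
    push_cast
    ring

theorem map_zpow (x : F) (hx : x ≠ 0) (k : ℤ) : ν (x ^ k) = k * ν x := by
  cases k with
  | ofNat k =>
    simp only [Int.ofNat_eq_natCast, zpow_natCast]
    exact hν.map_pow x hx k
  | negSucc k =>
    rw [zpow_negSucc, hν.map_inv _ (pow_ne_zero _ hx), hν.map_pow x hx]
    rw [Int.negSucc_eq]
    push_cast
    ring

/-- The valuation ring `{x | x = 0 ∨ 0 ≤ ν x}`. -/
def valuationSubring : ValuationSubring F where
  carrier := {x | x = 0 ∨ 0 ≤ ν x}
  zero_mem' := Or.inl rfl
  one_mem' := Or.inr (by rw [hν.map_one])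
  add_mem' := by
    rintro x y hx hy
    by_cases hx0 : x = 0
    · subst hx0; simpa using hy
    by_cases hy0 : y = 0
    · subst hy0; simpa using hx
    by_cases hxy : x + y = 0
    · exact Or.inl hxy
    right
    have h1 : 0 ≤ ν x := hx.resolve_left hx0
    have h2 : 0 ≤ ν y := hy.resolve_left hy0
    exact le_trans (le_min h1 h2) (hν.map_add x y hx0 hy0 hxy)
  neg_mem' := by
    rintro x hx
    by_cases hx0 : x = 0
    · subst hx0; left; simp
    right
    rw [hν.map_neg x hx0]
    exact hx.resolve_left hx0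
  mul_mem' := by
    rintro x y hx hy
    by_cases hx0 : x = 0
    · subst hx0; left; simp
    by_cases hy0 : y = 0
    · subst hy0; left; simp
    right
    rw [hν.map_mul x y hx0 hy0]
    have h1 : 0 ≤ ν x := hx.resolve_left hx0
    have h2 : 0 ≤ ν y := hy.resolve_left hy0
    omega
  mem_or_inv_mem' := by
    intro x
    by_cases hx0 : x = 0
    · left; left; exact hx0
    by_cases h : 0 ≤ ν x
    · left; right; exact h
    · right; right
      rw [hν.map_inv x hx0]
      omega

theorem mem_valuationSubring {x : F} : x ∈ hν.valuationSubring ↔ x = 0 ∨ 0 ≤ ν x := Iff.rfl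

theorem mem_valuationSubring_of_ne_zero {x : F} (hx : x ≠ 0) :
    x ∈ hν.valuationSubring ↔ 0 ≤ ν x :=
  ⟨fun h => h.resolve_left hx, fun h => Or.inr h⟩

/-- Every ideal of the valuation ring is principal: it is generated by an element of minimal
value. -/
theorem isPrincipalIdealRing : IsPrincipalIdealRing hν.valuationSubring := by
  classical
  refine ⟨fun I => ?_⟩
  by_cases hI : I = ⊥
  · rw [hI]; exact bot_isPrincipal
  obtain ⟨x, hxI, hx0⟩ := Submodule.exists_mem_ne_zero_of_ne_bot hI
  have hx0' : (x : F) ≠ 0 := fun h => hx0 (Subtype.ext h)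
  have hex : ∃ m : ℕ, ∃ y ∈ I, y ≠ 0 ∧ ν (y : F) = m := by
    refine ⟨(ν (x : F)).toNat, x, hxI, hx0, ?_⟩
    have := (hν.mem_valuationSubring_of_ne_zero hx0').mp x.2
    omega
  obtain ⟨y, hyI, hy0, hym⟩ := Nat.find_spec hex
  have hy0' : (y : F) ≠ 0 := fun h => hy0 (Subtype.ext h)
  refine ⟨⟨y, ?_⟩⟩
  apply le_antisymm
  · intro z hz
    rw [Submodule.mem_span_singleton]
    by_cases hz0 : z = 0
    · exact ⟨0, by rw [hz0, zero_smul]⟩
    have hz0' : (z : F) ≠ 0 := fun h => hz0 (Subtype.ext h)
    have hzv : 0 ≤ ν (z : F) := (hν.mem_valuationSubring_of_ne_zero hz0').mp z.2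
    have hmin : Nat.find hex ≤ (ν (z : F)).toNat :=
      Nat.find_min' hex ⟨z, hz, hz0, by omega⟩
    have hq : (z : F) / (y : F) ∈ hν.valuationSubring := by
      rw [hν.mem_valuationSubring_of_ne_zero (div_ne_zero hz0' hy0'), hν.map_div _ _ hz0' hy0',
        hym]
      omega
    refine ⟨⟨_, hq⟩, ?_⟩
    apply Subtype.ext
    show (z : F) / (y : F) * (y : F) = z
    exact div_mul_cancel₀ _ hy0'
  · rw [Submodule.span_le]
    intro z hz
    rw [Set.mem_singleton_iff.mp hz]
    exact hyI

/-- The place attached to a non-trivial order function. -/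
def place (hnt : ∃ x : F, x ≠ 0 ∧ ν x ≠ 0) : Place K F where
  toValuationSubring := hν.valuationSubring
  algebraMap_mem' a := by
    by_cases ha : a = 0
    · left; rw [ha, _root_.map_zero]
    · right; rw [hν.map_const a ha]
  ne_top' := by
    obtain ⟨x, hx0, hx⟩ := hnt
    intro htop
    have h1 : x ∈ hν.valuationSubring := htop ▸ ValuationSubring.mem_top x
    have h2 : x⁻¹ ∈ hν.valuationSubring := htop ▸ ValuationSubring.mem_top x⁻¹
    rw [hν.mem_valuationSubring_of_ne_zero hx0] at h1
    rw [hν.mem_valuationSubring_of_ne_zero (inv_ne_zero hx0), hν.map_inv x hx0] at h2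
    omega
  isPrincipalIdealRing' := hν.isPrincipalIdealRing

/-- A unit of the valuation ring has value `0`. -/
theorem map_unit (u : (hν.valuationSubring)ˣ) : ν ((u : hν.valuationSubring) : F) = 0 := by
  have hu0 : ((u : hν.valuationSubring) : F) ≠ 0 := by
    intro h
    exact u.ne_zero (Subtype.ext h)
  have hinv : (((u⁻¹ : (hν.valuationSubring)ˣ) : hν.valuationSubring) : F) =
      ((u : hν.valuationSubring) : F)⁻¹ := by
    have h := congrArg (Subtype.val : hν.valuationSubring → F) (Units.mul_inv u)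
    exact eq_inv_of_mul_eq_one_right h
  have h1 := (hν.mem_valuationSubring_of_ne_zero hu0).mp (u : hν.valuationSubring).2
  have h2 := (hν.mem_valuationSubring_of_ne_zero (by rw [hinv]; exact inv_ne_zero hu0)).mp
    ((u⁻¹ : (hν.valuationSubring)ˣ) : hν.valuationSubring).2
  rw [hinv, hν.map_inv _ hu0] at h2
  omega

/-- **TF-A.** If `n` divides the order of `f` at every place of `F / K`, then `n` divides
`ν f` for every order function `ν`. -/
theorem dvd_of_forall_place_dvd (n : ℤ) {f : F} (hf : f ≠ 0)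
    (hdiv : ∀ v : Place K F, n ∣ v.ord f) : n ∣ ν f := by
  by_cases hnt : ∃ x : F, x ≠ 0 ∧ ν x ≠ 0
  · obtain ⟨π, hπ⟩ := IsDiscreteValuationRing.exists_irreducible (hν.place hnt).toValuationSubring
    obtain ⟨u, hu⟩ := (hν.place hnt).exists_unit_mul_zpow hf hπ
    have hπ0 : (π : F) ≠ 0 := fun h => hπ.ne_zero (Subtype.ext h)
    have hu0 : ((u : (hν.place hnt).toValuationSubring) : F) ≠ 0 := fun h =>
      u.ne_zero (Subtype.ext h)
    have h1 : ν f = (hν.place hnt).ord f * ν (π : F) := by
      conv_lhs => rw [hu]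
      rw [hν.map_mul _ _ hu0 (zpow_ne_zero _ hπ0), hν.map_zpow _ hπ0]
      have : ν ((u : (hν.place hnt).toValuationSubring) : F) = 0 := hν.map_unit u
      rw [this, zero_add]
    rw [h1]
    exact Dvd.dvd.mul_right (hdiv _) _
  · push Not at hnt
    rw [hnt f hf]
    exact dvd_zero n

end IsOrdFun

/-- Composition of an order function with a homomorphism of fields over a homomorphism of the
constant fields. -/
theorem IsOrdFun.comp {K K' F F' : Type*} [Field K] [Field F] [Algebra K F]
    [Field K'] [Field F'] [Algebra K' F'] {ν : F' → ℤ} (hν : IsOrdFun K' ν)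
    (φ : F →+* F') (ι : K →+* K')
    (hφ : ∀ a : K, φ (algebraMap K F a) = algebraMap K' F' (ι a)) :
    IsOrdFun K (fun x => ν (φ x)) where
  map_mul x y hx hy := by
    simp only [_root_.map_mul]
    exact hν.map_mul _ _ ((map_ne_zero φ).mpr hx) ((map_ne_zero φ).mpr hy)
  map_add x y hx hy hxy := by
    simp only [_root_.map_add]
    refine hν.map_add _ _ ((map_ne_zero φ).mpr hx) ((map_ne_zero φ).mpr hy) ?_
    rw [← _root_.map_add]
    exact (map_ne_zero φ).mpr hxy
  map_const a ha := by
    simp only [hφ]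
    exact hν.map_const _ ((map_ne_zero ι).mpr ha)

end Fermat.Agent.F3TF
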