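import Fermat.Agent.F3.I2.Kappa.Ratio
import Fermat.Agent.F3.I2.LocalOrders
import Fermat.Agent.F3.TorsFin.PlaceOfVal

set_option autoImplicit false

/-!
# (K2) TorsionFinite, piece TF-B: the analytic order at `τ ∈ ℍ` as an order function on `FC N`

For `x = f / g ∈ FC N` (a ratio of modular forms of equal weight on `Γ₀(N)`) put
`ordVal N τ x = ord_τ f - ord_τ g`.  This is an order function on `FC N / ℂ` in the sense of
`PlaceOfVal.lean`.  Hence: if `n` divides the order of `x` at every place of `FC N`, then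
`n ∣ ord_τ f - ord_τ g` for every `τ` (no dictionary "points → places" is needed).
-/

noncomputable section

namespace Fermat.Agent.F3TF

open UpperHalfPlane CongruenceSubgroup ModularCurve AlgebraicCurve
open scoped MatrixGroups ModularForm Manifold
open Fermat.Agent.S23 Fermat.Agent.F3I2
open Fermat.Agent.S28 Fermat.Agent.S28.QExp

variable {N : ℕ}

theorem mdiff_of_isMF {w : ℤ} {f : ℍ → ℂ} (hf : IsMF (G0 N) w f) : MDiff f := by
  obtain ⟨F, rfl⟩ := hf
  exact F.holo'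

/-- The order of a sum is at least the minimum of the orders. -/
theorem min_ordAt_le_ordAt_add {f g : ℍ → ℂ} (hf : MDiff f) (hg : MDiff g) (hf0 : f ≠ 0)
    (hg0 : g ≠ 0) (hfg : f + g ≠ 0) (τ : ℍ) :
    min (ordAt f τ) (ordAt g τ) ≤ ordAt (f + g) τ := by
  unfold ordAt
  have h1 : (f + g) ∘ ofComplex = (f ∘ ofComplex) + (g ∘ ofComplex) := rfl
  have hle : min (analyticOrderAt (f ∘ ofComplex) (τ : ℂ)) (analyticOrderAt (g ∘ ofComplex) (τ : ℂ))
      ≤ analyticOrderAt ((f + g) ∘ ofComplex) (τ : ℂ) := by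
    rw [h1]
    exact le_analyticOrderAt_add
  obtain ⟨a, ha⟩ := ENat.ne_top_iff_exists.mp (analyticOrderAt_ne_top_of_ne_zero hf hf0 τ)
  obtain ⟨b, hb⟩ := ENat.ne_top_iff_exists.mp (analyticOrderAt_ne_top_of_ne_zero hg hg0 τ)
  obtain ⟨c, hc⟩ := ENat.ne_top_iff_exists.mp
    (analyticOrderAt_ne_top_of_ne_zero (hf.add hg) hfg τ)
  rw [← ha, ← hb, ← hc] at hle
  rw [← ha, ← hb, ← hc]
  simp only [ENat.toNat_natCast]
  have : min a b ≤ c := by
    rcases min_le_iff.mp hle with h | h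
    · exact min_le_iff.mpr (Or.inl (by exact_mod_cast h))
    · exact min_le_iff.mpr (Or.inr (by exact_mod_cast h))
  omega

/-- Sum of two ratios. -/
theorem isRatioF_add {x x' : FC N} {f g f' g' : ℍ → ℂ} (h : IsRatioF N x f g)
    (h' : IsRatioF N x' f' g') : IsRatioF N (x + x') (f * g' + f' * g) (g * g') := by
  obtain ⟨hg, ⟨w, hfm, hgm⟩, h1⟩ := h
  obtain ⟨hg', ⟨w', hfm', hgm'⟩, h2⟩ := h'
  have m1 : IsMF (G0 N) (w + w') (f * g') := hfm.mul hgm'
  have m2 : IsMF (G0 N) (w + w') (f' * g) := (hfm'.mul hgm).cast (add_comm _ _)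
  refine ⟨isMF_mul_ne_zero hgm hgm' hg hg', ⟨w + w', m1.add m2, hgm.mul hgm'⟩, ?_⟩
  show dict1QF (f * g' + f' * g) = _
  rw [dict1QF_add m1 m2, dict1QF_mul hfm hgm', dict1QF_mul hfm' hgm]
  show qLaurent f * qLaurent g' + qLaurent f' * qLaurent g = _
  rw [qLaurent_mul_of_isMF hgm hgm', h1, h2]
  push_cast
  ring

/-- The constant `a` as a ratio. -/
theorem isRatioF_const (N : ℕ) (a : ℂ) :
    IsRatioF N (algebraMap ℂ (FC N) a) (a • (1 : ℍ → ℂ)) 1 := by
  refine ⟨dict1_one_ne_zero, ⟨0, IsMF.one.smul a, IsMF.one⟩, ?_⟩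
  show dict1QF (a • (1 : ℍ → ℂ)) = _ * dict1QF (1 : ℍ → ℂ)
  rw [dict1QF_one, mul_one]
  have h1 : HasQ (a • (1 : ℍ → ℂ)) (HahnSeries.C a) :=
    (hasQ_const a).congr fun τ => by simp
  have h2 := dict1_hasQ_of_isMF (N := N) (IsMF.one.smul a)
  rw [← h1.unique h2]
  show HahnSeries.C a = algebraMap ℂ (LaurentSeries ℂ) a
  rw [algebraMap_eq_single_zero]
  rfl

section

variable [NeZero N]

open Classical in
/-- The analytic order of `x ∈ FC N` at `τ`. -/
def ordVal (N : ℕ) [NeZero N] (τ : ℍ) (x : FC N) : ℤ :=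
  if hx : x = 0 then 0 else
    ordAt (exists_isRatioF_of_ne_zero hx).choose τ -
      ordAt (exists_isRatioF_of_ne_zero hx).choose_spec.choose τ

/-- `ordVal` may be computed from any ratio. -/
theorem ordVal_eq (τ : ℍ) {x : FC N} {f g : ℍ → ℂ} (hf : f ≠ 0) (h : IsRatioF N x f g) :
    ordVal N τ x = ordAt f τ - ordAt g τ := by
  have hx : x ≠ 0 := fun hx => hf (h.eq_zero_iff.mp hx)
  unfold ordVal
  rw [dif_neg hx]
  obtain ⟨hf₀, h₀⟩ := (exists_isRatioF_of_ne_zero hx).choose_spec.choose_spec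
  set f₀ := (exists_isRatioF_of_ne_zero hx).choose
  set g₀ := (exists_isRatioF_of_ne_zero hx).choose_spec.choose
  have hcross : f₀ * g = f * g₀ := h₀.cross h
  obtain ⟨hg, ⟨w, hfm, hgm⟩, -⟩ := h
  obtain ⟨hg₀, ⟨w₀, hfm₀, hgm₀⟩, -⟩ := h₀
  have e1 := ordAt_mul (mdiff_of_isMF hfm₀) (mdiff_of_isMF hgm) hf₀ hg τ
  have e2 := ordAt_mul (mdiff_of_isMF hfm) (mdiff_of_isMF hgm₀) hf hg₀ τ
  rw [hcross] at e1
  rw [e1] at e2
  omega

theorem ordAt_const_smul_one {a : ℂ} (ha : a ≠ 0) (τ : ℍ) : ordAt (a • (1 : ℍ → ℂ)) τ = 0 := by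
  unfold ordAt
  have h1 : (a • (1 : ℍ → ℂ)) ∘ ofComplex = fun _ => a := by
    funext z
    simp
  rw [h1]
  have : analyticOrderAt (fun _ : ℂ => a) (τ : ℂ) = 0 := by
    rw [(analyticAt_const).analyticOrderAt_eq_zero]
    exact ha
  rw [this]
  rfl

theorem ordAt_one (τ : ℍ) : ordAt (1 : ℍ → ℂ) τ = 0 := by
  have := ordAt_const_smul_one (one_ne_zero : (1 : ℂ) ≠ 0) τ
  rwa [one_smul] at this

/-- **TF-B.** The analytic order at `τ` is an order function on `FC N`. -/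
theorem isOrdFun_ordVal (τ : ℍ) : IsOrdFun ℂ (ordVal N τ) where
  map_mul x y hx hy := by
    obtain ⟨f, g, hf, h⟩ := exists_isRatioF_of_ne_zero hx
    obtain ⟨f', g', hf', h'⟩ := exists_isRatioF_of_ne_zero hy
    have hm := h.mul h'
    have e1 := ordVal_eq τ hf h
    have e2 := ordVal_eq τ hf' h'
    obtain ⟨hg, ⟨w, hfm, hgm⟩, -⟩ := h
    obtain ⟨hg', ⟨w', hfm', hgm'⟩, -⟩ := h'
    have hff' : f * f' ≠ 0 := isMF_mul_ne_zero hfm hfm' hf hf'
    rw [ordVal_eq τ hff' hm, e1, e2,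
      ordAt_mul (mdiff_of_isMF hfm) (mdiff_of_isMF hfm') hf hf' τ,
      ordAt_mul (mdiff_of_isMF hgm) (mdiff_of_isMF hgm') hg hg' τ]
    ring
  map_add x y hx hy hxy := by
    obtain ⟨f, g, hf, h⟩ := exists_isRatioF_of_ne_zero hx
    obtain ⟨f', g', hf', h'⟩ := exists_isRatioF_of_ne_zero hy
    have ha := isRatioF_add h h'
    have hnum : f * g' + f' * g ≠ 0 := fun h0 => hxy (ha.eq_zero_iff.mpr h0)
    rw [ordVal_eq τ hnum ha, ordVal_eq τ hf h, ordVal_eq τ hf' h']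
    obtain ⟨hg, ⟨w, hfm, hgm⟩, -⟩ := h
    obtain ⟨hg', ⟨w', hfm', hgm'⟩, -⟩ := h'
    have m1 : MDiff (f * g') := (mdiff_of_isMF hfm).mul (mdiff_of_isMF hgm')
    have m2 : MDiff (f' * g) := (mdiff_of_isMF hfm').mul (mdiff_of_isMF hgm)
    have n1 : f * g' ≠ 0 := isMF_mul_ne_zero hfm hgm' hf hg'
    have n2 : f' * g ≠ 0 := isMF_mul_ne_zero hfm' hgm hf' hg
    have key := min_ordAt_le_ordAt_add m1 m2 n1 n2 hnum τ
    rw [ordAt_mul (mdiff_of_isMF hfm) (mdiff_of_isMF hgm') hf hg' τ,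
      ordAt_mul (mdiff_of_isMF hfm') (mdiff_of_isMF hgm) hf' hg τ] at key
    rw [ordAt_mul (mdiff_of_isMF hgm) (mdiff_of_isMF hgm') hg hg' τ]
    omega
  map_const a ha := by
    have hne : a • (1 : ℍ → ℂ) ≠ 0 := by
      intro h0
      have := congrFun h0 ⟨Complex.I, by simp⟩
      simp at this
      exact ha this
    rw [ordVal_eq τ hne (isRatioF_const N a), ordAt_const_smul_one ha, ordAt_one]
    rfl

/-- If `n` divides the order of `x` at every place of `FC N`, then `n` divides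
`ord_τ f - ord_τ g` for every ratio `x = f / g` and every `τ ∈ ℍ`. -/
theorem dvd_ordAt_sub_of_forall_place {n : ℤ} {x : FC N} {f g : ℍ → ℂ} (hf : f ≠ 0)
    (h : IsRatioF N x f g) (hdiv : ∀ v : Place ℂ (FC N), n ∣ v.ord x) (τ : ℍ) :
    n ∣ ordAt f τ - ordAt g τ := by
  have hx : x ≠ 0 := fun hx => hf (h.eq_zero_iff.mp hx)
  rw [← ordVal_eq τ hf h]
  exact (isOrdFun_ordVal τ).dvd_of_forall_place_dvd n hx hdiv

end

end Fermat.Agent.F3TF
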