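import Fermat.Agent.F3.I2.Kappa.Theta
import Fermat.Agent.F3.I2.Char
import Fermat.Agent.F3.TorsFin.OrdVal

set_option autoImplicit false

/-!
# (K2) TorsionFinite, piece TF-C: every torsion class has a character (`λ` is defined everywhere)

If `x = f₀ / g₀ ∈ FC N` and `n ∣ ord_τ f₀ - ord_τ g₀` for all `τ ∈ ℍ`, then
`f₀ g₀ ^ (n - 1) = h ^ n` for a holomorphic `h` (ROOT), `h` has a character `χ` with `χ ^ n = 1`
(CHAR), `h` is a form with character `χ`, and `x = h ^ n / g₀ ^ n`.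
In particular every `c ∈ Pic0 (FC N)` killed by `n` satisfies `IsTheta N n χ c` for some `χ`.
-/

noncomputable section

namespace Fermat.Agent.F3TF

open UpperHalfPlane CongruenceSubgroup ModularCurve AlgebraicCurve
open scoped MatrixGroups ModularForm Manifold
open Fermat.Agent.S23 Fermat.Agent.F3I2

variable {N : ℕ}

/-- A function whose `n`-th power is bounded at `i∞` is bounded at `i∞`. -/
theorem isBoundedAtImInfty_of_pow {F : ℍ → ℂ} {n : ℕ} (hn : n ≠ 0)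
    (h : IsBoundedAtImInfty (F ^ n)) : IsBoundedAtImInfty F := by
  rw [isBoundedAtImInfty_iff] at h ⊢
  obtain ⟨M, A, hMA⟩ := h
  refine ⟨max M 1, A, fun z hz => ?_⟩
  have h1 := hMA z hz
  simp only [Pi.pow_apply, norm_pow] at h1
  by_cases h2 : ‖F z‖ ≤ 1
  · exact le_trans h2 (le_max_right _ _)
  · push Not at h2
    have h3 : ‖F z‖ ≤ ‖F z‖ ^ n := le_self_pow₀ h2.le hn
    exact le_trans (le_trans h3 h1) (le_max_left _ _)

/-- A holomorphic function with a character whose `n`-th power is a modular form is a form with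
character. -/
theorem isFormChar_of_pow [NeZero N] {n : ℕ} (hn : n ≠ 0) {w : ℤ} {h : ℍ → ℂ}
    {χ : ↥(Gamma0 N) →* ℂˣ} (hh : MDiff h)
    (hslash : ∀ γ : ↥(Gamma0 N), h ∣[w] (γ : SL(2, ℤ)) = ((χ γ : ℂˣ) : ℂ) • h)
    (hpow : IsMF (G0 N) ((n : ℤ) * w) (h ^ n)) : IsFormChar N w χ h := by
  refine ⟨hh, hslash, fun g => ?_⟩
  apply isBoundedAtImInfty_of_pow hn
  rw [← pow_slash_SL2]
  exact (isFormChar_of_isMF hpow).bdd g

/-- **ROOT + CHAR.** -/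
theorem exists_formChar_root [NeZero N] {n : ℕ} (hn : n ≠ 0) {x : FC N} {f₀ g₀ : ℍ → ℂ}
    (hf₀ : f₀ ≠ 0) (h₀ : IsRatioF N x f₀ g₀)
    (hord : ∀ τ : ℍ, (n : ℤ) ∣ ordAt f₀ τ - ordAt g₀ τ) :
    ∃ (w : ℤ) (h B : ℍ → ℂ) (χ : ↥(Gamma0 N) →* ℂˣ), (∀ γ, χ γ ^ n = 1) ∧
      IsFormChar N w χ h ∧ IsFormChar N w 1 B ∧ h ≠ 0 ∧ B ≠ 0 ∧
      IsRatioF N x (h ^ n) (B ^ n) := by
  have hh₀ := h₀
  obtain ⟨hg₀, ⟨w, hfm, hgm⟩, -⟩ := h₀
  have hn1 : 1 ≤ n := Nat.one_le_iff_ne_zero.mpr hn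
  have hpowm : IsMF (G0 N) (w * ((n - 1 : ℕ) : ℤ)) (g₀ ^ (n - 1)) := hgm.pow (n - 1)
  have hpow0 : g₀ ^ (n - 1) ≠ 0 := isMF_pow_ne_zero hgm hg₀ (n - 1)
  set G : ℍ → ℂ := f₀ * g₀ ^ (n - 1) with hG
  have hcast : w + w * ((n - 1 : ℕ) : ℤ) = (n : ℤ) * w := by
    have : ((n - 1 : ℕ) : ℤ) = (n : ℤ) - 1 := by omega
    rw [this]; ring
  have hGm : IsMF (G0 N) ((n : ℤ) * w) G := (hfm.mul hpowm).cast hcast
  have hG0 : G ≠ 0 := isMF_mul_ne_zero hfm hpowm hf₀ hpow0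
  have hGd : MDiff G := mdiff_of_isMF hGm
  -- the orders of `G` are divisible by `n`
  have hordG : ∀ τ : ℍ, ∃ m : ℕ, analyticOrderAt (G ∘ ofComplex) (τ : ℂ) = ((n * m : ℕ) : ℕ∞) := by
    intro τ
    have e1 : ordAt G τ = ordAt f₀ τ + ((n - 1 : ℕ) : ℤ) * ordAt g₀ τ := by
      rw [hG, ordAt_mul (mdiff_of_isMF hfm) (mdiff_of_isMF hpowm) hf₀ hpow0 τ,
        ordAt_pow (mdiff_of_isMF hgm) hg₀]
    have e2 : (n : ℤ) ∣ ordAt G τ := by
      have : ordAt G τ = (ordAt f₀ τ - ordAt g₀ τ) + (n : ℤ) * ordAt g₀ τ := by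
        rw [e1]
        have : ((n - 1 : ℕ) : ℤ) = (n : ℤ) - 1 := by omega
        rw [this]; ring
      rw [this]
      exact dvd_add (hord τ) (dvd_mul_right _ _)
    obtain ⟨k, hk⟩ := ENat.ne_top_iff_exists.mp (analyticOrderAt_ne_top_of_ne_zero hGd hG0 τ)
    have e3 : ordAt G τ = (k : ℤ) := by
      unfold ordAt
      rw [← hk]
      simp
    rw [e3] at e2
    obtain ⟨m, hm⟩ := Int.natCast_dvd_natCast.mp e2
    exact ⟨m, by rw [← hk, hm]⟩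
  obtain ⟨h, hhd, hhp⟩ := exists_mdiff_root hGd hn hordG
  have hhG : h ^ n = G := funext fun τ => by simpa using hhp τ
  have hh0 : h ≠ 0 := by
    intro h0
    apply hG0
    rw [← hhG, h0, zero_pow hn]
  have hinv : ∀ γ : ↥(Gamma0 N), (h ^ n) ∣[(n : ℤ) * w] (γ : SL(2, ℤ)) = h ^ n := by
    intro γ
    rw [hhG]
    have := (isFormChar_of_isMF hGm).slash γ
    simpa using this
  obtain ⟨χ, hχ, hslash⟩ := exists_character_of_pow_slash hn hhd hh0 hinv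
  have hhF : IsFormChar N w χ h := isFormChar_of_pow hn hhd hslash (hhG ▸ hGm)
  refine ⟨w, h, g₀, χ, hχ, hhF, isFormChar_of_isMF hgm, hh0, hg₀, ?_⟩
  have hgn : IsMF (G0 N) ((n : ℤ) * w) (g₀ ^ n) := (hgm.pow n).cast (mul_comm _ _)
  refine hh₀.congr (isMF_pow_ne_zero hgm hg₀ n) (hhG ▸ hGm) hgn ?_
  rw [hhG, hG]
  have : g₀ ^ n = g₀ ^ (n - 1) * g₀ := by
    rw [← pow_succ, Nat.sub_add_cancel hn1]
  rw [this]
  ring

/-- **`λ` is defined everywhere (over `ℂ`).**  Every class of `Pic0 (FC N)` killed by `n` is the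
class attached to a character of order dividing `n`. -/
theorem exists_isTheta_of_torsion [NeZero N] {n : ℕ} (hn : n ≠ 0) (c : Pic0 ℂ (FC N))
    (hc : n • c = 0) : ∃ χ : ↥(Gamma0 N) →* ℂˣ, IsTheta N n χ c := by
  have hc' : (n : ℤ) • c = 0 := by rw [natCast_zsmul]; exact hc
  obtain ⟨D, x, hD, hDc⟩ := exists_isRootDiv_of_torsion n c hc'
  obtain ⟨f₀, g₀, hf₀, h₀⟩ := exists_isRatioF_of_ne_zero hD.1
  have hdiv : ∀ v : Place ℂ (FC N), (n : ℤ) ∣ v.ord x := fun v => ⟨_, (hD.2 v).symm⟩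
  obtain ⟨w, h, B, χ, hχ, hh, hB, hh0, hB0, hr⟩ := exists_formChar_root hn hf₀ h₀
    (fun τ => dvd_ordAt_sub_of_forall_place hf₀ h₀ hdiv τ)
  exact ⟨χ, hχ, w, h, B, x, D, hh, hB, hh0, hB0, hr, hD, hDc⟩

end Fermat.Agent.F3TF
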